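/-
S19, geometry side, node GC (the geometric core), via the ABSTRACT route (helper5516 skeleton `Abs/*`):
`Abs.exists_coalgLattice_jZero_core_of_abs` (Abs/Bind.lean) = this statement, proved from
`Abs.exists_modular_setup` (binding of the Deuring data of `X₀(p)` at a place over `ℓ ∤ p`) and
`Abs.exists_lattice` (abstract geometric core).  Statement unchanged (helper107 skeleton).
-/
import Fermat.Agent.S19.Abs.Bind

set_option autoImplicit false

open ModularCurve AlgebraicCurve

namespace Fermat.Agent.S19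

/-- GC.  For `ℓ ∤ p` the (finite) `ℓ^k`-torsion of `JZero p` carries a `CoalgLattice` at some valuation
ring of `Qbar` over `ℓ`. -/
theorem exists_coalgLattice_jZero_core
    (p : ℕ) [NeZero p] (ℓ : ℕ) [Fact ℓ.Prime] (hℓp : ¬ ℓ ∣ p) (k : ℕ)
    (hfin : Finite ↥(Submodule.torsionBy ℤ (JZero p) ((ℓ : ℤ) ^ k))) :
    ∃ A : ValuationSubring Qbar, A.LiesOverPrime ℓ ∧
      ∃ N : Set (↥(Submodule.torsionBy ℤ (JZero p) ((ℓ : ℤ) ^ k)) → Qbar),
        CoalgLattice (Submodule.torsionBy ℤ (JZero p) ((ℓ : ℤ) ^ k)) A N :=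
  Abs.exists_coalgLattice_jZero_core_of_abs p ℓ hℓp k hfin

end Fermat.Agent.S19
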