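/-
S19, geometry side, package GD: every point of `JZero p` is fixed by an open subgroup of `GQ`.
FROZEN STATEMENT (helper107 skeleton).  Sketch: a class is represented by a divisor, a divisor involves
finitely many places, so it suffices that every place `P` of `modularFunctionFieldBar p` is fixed by the
`σ` fixing a suitable number field.  A place with `j` finite is a `Qbar`-algebra map `B → Qbar`
(`B` = integral closure of `Qbar[j]`), determined by its values on finitely many module generators of `B`
over `Qbar[j]` which have rational `q`-expansions (so are fixed by the coefficientwise action); same at
infinity with `1/j`.  Take `K` generated by these finitely many values.  (Landed S24 tree: place theory of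
the function field in characteristic 0; S18 project: charts.)

PROVED (helper2087) in `Fermat/Agent/S19/Disc2087/Basic.lean` by a shorter route: a place `v` is the unique
place `w` with `ord_w π > 0` (π a uniformiser at `v`; finitely many such `w` by the landed S24 finiteness of
`div π`) and `g_u ∈ O_w` for chosen separating functions `g_u ∈ O_v \ O_u`; every element of the function
field is fixed by the Galois group of a number field (induction on the field closure).
-/
import Fermat.Agent.S19.Defs
import Fermat.Agent.S19.Disc2087.Basic

set_option autoImplicit false

open ModularCurve

namespace Fermat.Agent.S19

/-- GD. -/
theorem exists_numberField_fixing_jZero (p : ℕ) [NeZero p] (x : JZero p) :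
    ∃ K : IntermediateField ℚ Qbar, FiniteDimensional ℚ K ∧
      ∀ σ : GQ, (∀ a ∈ K, σ a = a) → σ • x = x :=
  Disc2087.exists_field_fixing_jZero p x

end Fermat.Agent.S19
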