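/-
S19, geometry side, package GF: finiteness of the torsion of `JZero`, from the torsion count S27
(in flight in the S27 project; here S27 enters as a HYPOTHESIS `h27` with the exact frozen shape at
universe 0, so that this file does not depend on the S27 tree).  FROZEN STATEMENT (helper107 skeleton).
Needs: the `IsCurveOver` and `Algebra.EssFiniteType` instances for `modularFunctionFieldBar p` over `Qbar`
(see the landed S24 tree), `Pic0.torsion` versus `Submodule.torsionBy`, and `Nat.card ≠ 0 → Finite`.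

PROVED (helper2747): the two instances are in `Fermat/Agent/S19/Fin2747/Curve.lean` (from landed S24).
-/
import Fermat.Agent.S19.Defs
import Fermat.Agent.S19.Fin2747.Curve
import Fermat.Prelude.Def_AlgebraicCurve_IsCurveOver
import Fermat.Prelude.Def_AlgebraicCurve_Repartitions

set_option autoImplicit false

open ModularCurve AlgebraicCurve

namespace Fermat.Agent.S19

/-- GF. -/
theorem finite_torsion_jZero_of_S27
    (h27 : ∀ (K F : Type) [Field K] [Field F] [Algebra K F] [IsAlgClosed K] [CharZero K]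
      [IsCurveOver K F] [Algebra.EssFiniteType K F] (ℓ : ℕ) [Fact ℓ.Prime] (k : ℕ),
      Nat.card (Pic0.torsion K F (ℓ ^ k)) = ℓ ^ (2 * genusFF K F * k))
    (p : ℕ) [NeZero p] (ℓ : ℕ) [Fact ℓ.Prime] (k : ℕ) :
    Finite ↥(Submodule.torsionBy ℤ (JZero p) ((ℓ : ℤ) ^ k)) := by
  have : IsCurveOver (AlgebraicClosure ℚ) ↥(modularFunctionFieldBar p) :=
    Fin2747.isCurveOver_modular p
  have : Algebra.EssFiniteType (AlgebraicClosure ℚ) ↥(modularFunctionFieldBar p) :=
    Fin2747.essFiniteType_modular p
  have hcard := h27 (AlgebraicClosure ℚ) ↥(modularFunctionFieldBar p) ℓ k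
  have hne : Nat.card (Pic0.torsion (AlgebraicClosure ℚ) ↥(modularFunctionFieldBar p) (ℓ ^ k)) ≠ 0 := by
    rw [hcard]
    exact pow_ne_zero _ (Fact.out : ℓ.Prime).ne_zero
  have hfin : Finite (Pic0.torsion (AlgebraicClosure ℚ) ↥(modularFunctionFieldBar p) (ℓ ^ k)) :=
    Nat.finite_of_card_ne_zero hne
  have hcast : ((ℓ ^ k : ℕ) : ℤ) = (ℓ : ℤ) ^ k := Nat.cast_pow ℓ k
  have hset : ((Submodule.torsionBy ℤ (JZero p) ((ℓ : ℤ) ^ k) : Submodule ℤ (JZero p)) : Set (JZero p))
      = ((Pic0.torsion (AlgebraicClosure ℚ) ↥(modularFunctionFieldBar p) (ℓ ^ k) :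
          AddSubgroup (JZero p)) : Set (JZero p)) := by
    ext x
    simp only [SetLike.mem_coe, Submodule.mem_torsionBy_iff, Pic0.mem_torsion, hcast]
  have hfinset : ((Pic0.torsion (AlgebraicClosure ℚ) ↥(modularFunctionFieldBar p) (ℓ ^ k) :
          AddSubgroup (JZero p)) : Set (JZero p)).Finite := Set.toFinite _
  rw [← hset] at hfinset
  exact hfinset.to_subtype

end Fermat.Agent.S19
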